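import Fermat.Agent.QuaternionClasses.Mass
import Fermat.Agent.Forms3.ThreeSquaresRelation

/-!
# Three squares and the class numbers with a factor at `2`

For `N ≡ 0, 3 (mod 4)` the representations of `N` by three squares are twelve times the reduced
forms of discriminant `-N`, each counted with its weight and the local factor at `2`. With the
factor at `3` as well, the forms of discriminant `-9 N` count as those of `-N`.
-/

set_option autoImplicit false
set_option linter.unusedSectionVars false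
set_option linter.style.haveILetI false

noncomputable section

open FA.QuaternionClasses
open FA.ClassRelation (redForms weight smulForm mem_redForms classNumberH)
open FA.HurwitzQ (reps)

namespace FA.QuaternionJL

/-- The discriminant of the primitive form of a form. -/
def coreDisc (f : ℤ × ℤ × ℤ) : ℤ := FA.Singular.disc f / (formContent f : ℤ) ^ 2

/-- The class number with the factor at `2`. -/
def twoClassNumber (N : ℕ) : ℚ := ∑ f ∈ redForms N, (factorTwo (coreDisc f) : ℚ) * weight f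

theorem content_dvd (f : ℤ × ℤ × ℤ) :
    (formContent f : ℤ) ∣ f.1 ∧ (formContent f : ℤ) ∣ f.2.1 ∧ (formContent f : ℤ) ∣ f.2.2 :=
  ⟨(Int.gcd_dvd_left _ _).trans (Int.gcd_dvd_left _ _),
    (Int.gcd_dvd_left _ _).trans (Int.gcd_dvd_right _ _), Int.gcd_dvd_right _ _⟩

theorem content_sq_mul {N : ℕ} {f : ℤ × ℤ × ℤ} (hf : f ∈ redForms N) :
    (formContent f : ℤ) ^ 2 * coreDisc f = -(N : ℤ) ∧ formContent f ≠ 0 := by
  obtain ⟨⟨a, ha⟩, ⟨b, hb⟩, ⟨c, hc⟩⟩ := content_dvd f
  obtain ⟨hd, hpos, -⟩ := mem_redForms.1 hf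
  have h0 : formContent f ≠ 0 := fun h => by rw [ha, h] at hpos; simp at hpos
  have e : FA.Singular.disc f = (formContent f : ℤ) ^ 2 * (b ^ 2 - 4 * a * c) := by
    rw [FA.Singular.disc, ha, hb, hc]
    ring
  refine ⟨?_, h0⟩
  rw [coreDisc, e, Int.mul_ediv_cancel_left _ (pow_ne_zero 2 (Int.natCast_ne_zero.2 h0)), ← e]
  exact hd

theorem coreDisc_smul {k : ℕ} (hk : k ≠ 0) (f : ℤ × ℤ × ℤ) :
    coreDisc (smulForm (k : ℤ) f) = coreDisc f := by
  rw [coreDisc, coreDisc, FA.ClassRelation.disc_smulForm,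
    formContent_smul (by omega : (0 : ℤ) < k), mul_pow,
    Int.mul_ediv_mul_of_pos _ _ (by positivity)]

theorem smul_mem_redForms {N k : ℕ} (hk : k ≠ 0) {f : ℤ × ℤ × ℤ} :
    smulForm (k : ℤ) f ∈ redForms (k * k * N) ↔ f ∈ redForms N := by
  have hk' : (0 : ℤ) < k := by omega
  simp only [mem_redForms, smulForm, abs_mul, abs_of_pos hk', mul_pos_iff_of_pos_left hk',
    mul_le_mul_iff_right₀ hk', mul_right_inj' hk'.ne', mul_nonneg_iff_of_pos_left hk']
  refine and_congr_left' ?_
  push_cast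
  constructor <;> intro h
  · exact mul_left_cancel₀ (pow_ne_zero 2 hk'.ne') (by linear_combination h)
  · linear_combination (k : ℤ) ^ 2 * h

/-- **Splitting the forms by divisibility of the content.** -/
theorem sum_split {k N : ℕ} (hk : k ≠ 0) (G : ℤ → ℚ) :
    ∑ f ∈ redForms (k * k * N), G (coreDisc f) * weight f =
      (∑ f ∈ (redForms (k * k * N)).filter (fun f => ¬ k ∣ formContent f),
        G (coreDisc f) * weight f) + ∑ f ∈ redForms N, G (coreDisc f) * weight f := by
  classical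
  rw [← Finset.sum_filter_not_add_sum_filter (redForms (k * k * N))
    (fun f => ¬ k ∣ formContent f)]
  rw [add_comm]
  congr 1
  refine (Finset.sum_nbij (fun f => smulForm (k : ℤ) f) (fun f hf => ?_) (fun f _ g _ h => ?_)
    (fun g hg => ?_) fun f _ => ?_).symm
  · refine Finset.mem_filter.2 ⟨(smul_mem_redForms hk).2 hf, not_not.2 ?_⟩
    have e := formContent_smul (by omega : (0 : ℤ) < k) f
    exact ⟨formContent f, by exact_mod_cast e⟩
  · obtain ⟨a, b, c⟩ := f
    obtain ⟨a', b', c'⟩ := g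
    simpa [smulForm, hk] using h
  · simp only [Finset.coe_filter, not_not, Set.mem_ofPred_eq] at hg
    obtain ⟨⟨a, b, c⟩, hkg⟩ : ∃ f, smulForm (k : ℤ) f = g := by
      obtain ⟨⟨a, ha⟩, ⟨b, hb⟩, ⟨c, hc⟩⟩ := content_dvd g
      obtain ⟨j, hj⟩ := hg.2
      refine ⟨(j * a, j * b, j * c), ?_⟩
      simp only [smulForm, ← mul_assoc, ← Nat.cast_mul, ← hj, ← ha, ← hb, ← hc]
    subst hkg
    exact ⟨(a, b, c), Finset.mem_coe.2 ((smul_mem_redForms hk).1 hg.1), rfl⟩
  · rw [coreDisc_smul hk, FA.ClassRelation.weight_smulForm (by exact_mod_cast hk)]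

theorem factorTwo_values (D : ℤ) :
    (D % 8 = 5 → factorTwo D = 2) ∧ ((D % 16 = 8 ∨ D % 16 = 12) → factorTwo D = 1) ∧
      ((D % 8 = 1 ∨ D % 16 = 0 ∨ D % 16 = 4) → factorTwo D = 0) := by
  rw [factorTwo]
  refine ⟨fun h => ?_, fun h => ?_, fun h => ?_⟩ <;> split_ifs <;> omega

theorem odd_content_disc {N : ℕ} {f : ℤ × ℤ × ℤ} (hf : f ∈ redForms N)
    (h : ¬ 2 ∣ formContent f) :
    coreDisc f % 8 = (-(N : ℤ)) % 8 ∧ (4 ∣ N → coreDisc f % 16 = (-(N : ℤ)) % 16) := by
  obtain ⟨e, -⟩ := content_sq_mul hf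
  obtain ⟨j, hj⟩ : ∃ j, formContent f = 2 * j + 1 := ⟨formContent f / 2, by omega⟩
  obtain ⟨q, hq⟩ : ∃ q : ℕ, j * (j + 1) = 2 * q := (Nat.even_mul_succ_self j).exists_two_nsmul _
  have hq' : (j : ℤ) * (j + 1) = 2 * q := by exact_mod_cast hq
  have e8 : -(N : ℤ) = coreDisc f + 8 * ((q : ℤ) * coreDisc f) := by
    rw [← e, hj]
    push_cast
    linear_combination (4 * coreDisc f) * hq'
  refine ⟨by omega, fun h4 => ?_⟩
  obtain ⟨r, hr⟩ : (4 : ℤ) ∣ coreDisc f := by omega
  rw [hr] at e8 ⊢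
  have : -(N : ℤ) = 4 * r + 32 * ((q : ℤ) * r) := by rw [e8]; ring
  omega

theorem even_content {N : ℕ} {f : ℤ × ℤ × ℤ} (hf : f ∈ redForms N) (h : 2 ∣ formContent f) :
    4 ∣ N ∧ (N / 4 % 4 = 0 ∨ N / 4 % 4 = 3) := by
  obtain ⟨⟨a, ha⟩, ⟨b, hb⟩, ⟨c, hc⟩⟩ := content_dvd f
  obtain ⟨hd, -⟩ := mem_redForms.1 hf
  obtain ⟨j, hj⟩ := h
  rw [ha, hb, hc, hj] at hd
  push_cast at hd
  have e : (N : ℤ) = 4 * (4 * ((j : ℤ) ^ 2 * a * c) - ((j : ℤ) * b) ^ 2) := by
    linear_combination hd
  obtain ⟨w, hw | hw⟩ := Int.even_or_odd' ((j : ℤ) * b)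
  · rw [hw, show (2 * w : ℤ) ^ 2 = 4 * w ^ 2 by ring] at e
    omega
  · rw [hw, show (2 * w + 1 : ℤ) ^ 2 = 4 * (w ^ 2 + w) + 1 by ring] at e
    omega

/-- **Three squares.** -/
theorem card_reps_eq : ∀ N : ℕ, (N % 4 = 0 ∨ N % 4 = 3) → 0 < N →
    ((reps N).card : ℚ) = 12 * twoClassNumber N := by
  intro N
  induction N using Nat.strong_induction_on with
  | _ N ih =>
    intro hN hpos
    obtain ⟨m, rfl⟩ | hodd : 4 ∣ N ∨ N % 4 = 3 := by omega
    · rw [FA.HurwitzQ.card_reps_four, twoClassNumber]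
      rcases (by omega : (m % 4 = 1 ∨ m % 4 = 2) ∨ (m % 4 = 0 ∨ m % 4 = 3)) with hm | hm
      · rw [FA.HurwitzQ.card_reps_two hm, classNumberH]
        refine congrArg (12 * ·) (Finset.sum_congr rfl fun f hf => ?_)
        have hc : ¬ 2 ∣ formContent f := fun h => by
          have := (even_content hf h).2
          omega
        have := (odd_content_disc hf hc).2 (dvd_mul_right 4 m)
        rw [(factorTwo_values _).2.1 (by omega), Nat.cast_one, one_mul]
      · rw [show 4 * m = 2 * 2 * m by norm_num, sum_split two_ne_zero (fun D => (factorTwo D : ℚ)),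
          ih m (by omega) hm (by omega)]
        rw [Finset.sum_eq_zero fun f hf => ?_, zero_add, twoClassNumber]
        obtain ⟨hf, hc⟩ := Finset.mem_filter.1 hf
        have := (odd_content_disc hf hc).2 (by norm_num)
        rw [(factorTwo_values _).2.2 (by omega), Nat.cast_zero, zero_mul]
    · have hc : ∀ f ∈ redForms N, ¬ 2 ∣ formContent f := fun f hf h => by
        have := (even_content hf h).1
        omega
      rcases (by omega : N % 8 = 3 ∨ N % 8 = 7) with h8 | h8
      · rw [FA.HurwitzQ.card_reps_one h8, classNumberH, twoClassNumber, Finset.mul_sum,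
          Finset.mul_sum]
        refine Finset.sum_congr rfl fun f hf => ?_
        have := (odd_content_disc hf (hc f hf)).1
        rw [(factorTwo_values _).1 (by omega)]
        push_cast
        ring
      · rw [FA.HurwitzQ.card_reps_seven h8, Nat.cast_zero, twoClassNumber,
          Finset.sum_eq_zero fun f hf => ?_, mul_zero]
        have := (odd_content_disc hf (hc f hf)).1
        rw [(factorTwo_values _).2.2 (by omega), Nat.cast_zero, zero_mul]

/-- The coefficient at `3` of a discriminant `-N`. -/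
def threeCoef (N : ℕ) : ℕ := if N % 3 = 0 then 1 else if N % 3 = 1 then 2 else 0

theorem quatClassNumber_eq_sum (N : ℕ) : quatClassNumber N =
    ∑ f ∈ redForms N, ((eps (coreDisc f) : ℕ) : ℚ) * weight f := rfl

/-- **Removing a square of three.** -/
theorem quatClassNumber_nine (N : ℕ) : quatClassNumber (9 * N) = quatClassNumber N := by
  rw [quatClassNumber_eq_sum, quatClassNumber_eq_sum, show 9 * N = 3 * 3 * N by norm_num,
    sum_split three_ne_zero (fun D => (eps D : ℚ)), Finset.sum_eq_zero fun f hf => ?_, zero_add]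
  obtain ⟨hf, hc⟩ := Finset.mem_filter.1 hf
  have e := (content_sq_mul hf).1
  have h9 : (3 : ℤ) ^ 2 ∣ coreDisc f := by
    have hcop : IsCoprime ((3 : ℤ) ^ 2) ((formContent f : ℤ) ^ 2) :=
      IsCoprime.pow (Int.isCoprime_iff_nat_coprime.2
        (by simpa using (Nat.prime_three.coprime_iff_not_dvd.2 hc)))
    exact hcop.dvd_of_dvd_mul_left (by rw [e]; exact dvd_neg.2 ⟨N, by push_cast; ring⟩)
  have h0 : factorThree (coreDisc f) = 0 := by
    rw [factorThree]
    split_ifs <;> omega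
  rw [eps, h0, mul_zero, Nat.cast_zero, zero_mul]

theorem quatClassNumber_base {N : ℕ} (hN : ¬ 9 ∣ N) :
    quatClassNumber N = threeCoef N * twoClassNumber N := by
  rw [quatClassNumber_eq_sum, twoClassNumber, Finset.mul_sum]
  refine Finset.sum_congr rfl fun f hf => ?_
  obtain ⟨e, -⟩ := content_sq_mul hf
  have hc : ¬ (3 : ℤ) ∣ formContent f := fun h => hN (by
    have : ((3 : ℤ) ^ 2) ∣ (N : ℤ) := by
      rw [← neg_neg (N : ℤ), ← e, dvd_neg]
      exact (pow_dvd_pow_of_dvd h 2).mul_right _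
    omega)
  obtain ⟨j, q, hjq⟩ : ∃ j q : ℤ, (formContent f : ℤ) = 3 * q + j ∧ (j = 1 ∨ j = 2) :=
    ⟨(formContent f : ℤ) % 3, (formContent f : ℤ) / 3, by omega, by omega⟩
  obtain ⟨hjq, hj⟩ := hjq
  have e3 : -(N : ℤ) = j ^ 2 * coreDisc f + 3 * ((3 * q ^ 2 + 2 * q * j) * coreDisc f) := by
    rw [← e, hjq]
    ring
  have hmod : coreDisc f % 3 = (-(N : ℤ)) % 3 := by
    rcases hj with rfl | rfl <;> norm_num at e3 <;> omega
  have h9 : ¬ (9 : ℤ) ∣ coreDisc f := fun h => hN (by
    have : (9 : ℤ) ∣ (N : ℤ) := by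
      rw [← neg_neg (N : ℤ), ← e, dvd_neg]
      exact h.mul_left _
    omega)
  have h0 : factorThree (coreDisc f) = threeCoef N := by
    rw [factorThree, threeCoef]
    split_ifs <;> omega
  rw [eps, h0]
  push_cast
  ring

end FA.QuaternionJL

end
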