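import Fermat.Agent.QuaternionJL.SymPower
import Mathlib.Algebra.Quaternion
import Mathlib.LinearAlgebra.PID
import Mathlib.LinearAlgebra.Trace

/-!
# Algebraic modular forms on a definite order

For a ring `O` of rational quaternions with finitely many elements of each norm, the algebraic
modular forms of degree `j` are the binary forms of degree `j` invariant under the units, and
`T n` is the sum over the elements of norm `n` divided by the number of units; its trace is the
mean of the Lucas numbers.
-/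

set_option autoImplicit false
set_option linter.unusedSectionVars false
set_option linter.style.haveILetI false

noncomputable section

open Quaternion Matrix
open scoped Quaternion

namespace FA.QuaternionJL

/-- A quaternion as a complex matrix. -/
def toMat (x : ℍ[ℚ]) : Matrix (Fin 2) (Fin 2) ℂ :=
  !![(x.re : ℂ) + x.imI * Complex.I, (x.imJ : ℂ) + x.imK * Complex.I;
    -(x.imJ : ℂ) + x.imK * Complex.I, (x.re : ℂ) - x.imI * Complex.I]

theorem toMat_one : toMat 1 = 1 := by
  ext i l
  fin_cases i <;> fin_cases l <;> simp [toMat]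

theorem toMat_mul (x y : ℍ[ℚ]) : toMat (x * y) = toMat x * toMat y := by
  ext i l
  fin_cases i <;> fin_cases l <;> simp [toMat, Matrix.mul_apply, Fin.sum_univ_two] <;>
    ring_nf <;> simp only [Complex.I_sq] <;> ring

theorem det_toMat (x : ℍ[ℚ]) : (toMat x).det = ((normSq x : ℚ) : ℂ) := by
  rw [normSq_def']
  simp [toMat, det_fin_two]
  ring_nf
  simp only [Complex.I_sq]
  ring

theorem trace_toMat (x : ℍ[ℚ]) : (toMat x).trace = ((2 * x.re : ℚ) : ℂ) := by
  simp [toMat, trace_fin_two]
  ring

/-- The action on the binary forms of degree `j`. -/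
def act (j : ℕ) (x : ℍ[ℚ]) : Module.End ℂ (Fin (j + 1) → ℂ) :=
  Matrix.toLin' (symMat j (toMat x))

theorem act_mul (j : ℕ) {x y : ℍ[ℚ]} (hy : y ≠ 0) : act j (x * y) = act j x * act j y := by
  rw [act, toMat_mul, symMat_mul j (by
    rw [det_toMat]
    exact_mod_cast normSq_ne_zero.2 hy), Matrix.toLin'_mul]
  rfl

theorem act_one (j : ℕ) : act j 1 = 1 := by
  rw [act, toMat_one, symMat_one, Matrix.toLin'_one]
  rfl

/-- An order given with its elements of each norm. -/
structure NormData where
  order : Subring ℍ[ℚ]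
  elems : ℕ → Finset ℍ[ℚ]
  mem_elems : ∀ n x, x ∈ elems n ↔ x ∈ order ∧ normSq x = (n : ℚ)

open scoped Classical

namespace NormData

variable (D : NormData) (j : ℕ)

theorem one_mem_units : (1 : ℍ[ℚ]) ∈ D.elems 1 :=
  (D.mem_elems 1 1).2 ⟨one_mem _, by simp⟩

theorem card_units_ne_zero : ((D.elems 1).card : ℂ) ≠ 0 :=
  Nat.cast_ne_zero.2 (Finset.card_ne_zero_of_mem D.one_mem_units)

theorem ne_zero {n : ℕ} (hn : n ≠ 0) {x : ℍ[ℚ]} (hx : x ∈ D.elems n) : x ≠ 0 := fun h => by
  have := ((D.mem_elems n x).1 hx).2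
  rw [h, map_zero] at this
  exact hn (by exact_mod_cast this.symm)

theorem unit_mul_image {e : ℍ[ℚ]} (he : e ∈ D.elems 1) (n : ℕ) :
    (D.elems n).image (e * ·) = D.elems n := by
  refine Finset.eq_of_subset_of_card_le (Finset.image_subset_iff.2 fun x hx => ?_) (le_of_eq ?_)
  · obtain ⟨h1, h2⟩ := (D.mem_elems 1 e).1 he
    obtain ⟨h3, h4⟩ := (D.mem_elems n x).1 hx
    exact (D.mem_elems n _).2 ⟨mul_mem h1 h3, by rw [map_mul, h2, h4, Nat.cast_one, one_mul]⟩
  · exact (Finset.card_image_of_injective _ (mul_right_injective₀ (D.ne_zero one_ne_zero he))).symm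

/-- **The algebraic modular forms**: the invariants of the units. -/
def forms : Submodule ℂ (Fin (j + 1) → ℂ) :=
  ⨅ e ∈ D.elems 1, LinearMap.eqLocus (act j e) LinearMap.id

theorem mem_forms {v : Fin (j + 1) → ℂ} :
    v ∈ D.forms j ↔ ∀ e ∈ D.elems 1, act j e v = v := by
  simp [forms]

/-- The sum over the elements of norm `n`, divided by the units. -/
def average (n : ℕ) : Module.End ℂ (Fin (j + 1) → ℂ) :=
  ((D.elems 1).card : ℂ)⁻¹ • ∑ x ∈ D.elems n, act j x

theorem act_average {n : ℕ} (hn : n ≠ 0) {e : ℍ[ℚ]} (he : e ∈ D.elems 1) :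
    act j e * D.average j n = D.average j n := by
  rw [average, mul_smul_comm, Finset.mul_sum]
  refine congrArg _ ?_
  conv_rhs => rw [← D.unit_mul_image he n, Finset.sum_image
    (mul_right_injective₀ (D.ne_zero one_ne_zero he)).injOn]
  exact Finset.sum_congr rfl fun x hx => (act_mul j (D.ne_zero hn hx)).symm

theorem average_mem (n : ℕ+) (v : Fin (j + 1) → ℂ) : D.average j n v ∈ D.forms j :=
  (D.mem_forms j).2 fun _ he => LinearMap.congr_fun (D.act_average j n.ne_zero he) v

/-- **The Hecke operator.** -/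
def hecke (n : ℕ+) : Module.End ℂ (D.forms j) :=
  LinearMap.restrict (D.average j n) fun v _ => D.average_mem j n v

theorem hecke_one : D.hecke j 1 = 1 := by
  refine LinearMap.ext fun v => Subtype.ext ?_
  show D.average j 1 (v : Fin (j + 1) → ℂ) = v
  rw [average, LinearMap.smul_apply, LinearMap.sum_apply,
    Finset.sum_congr rfl fun e he => (D.mem_forms j).1 v.2 e he, Finset.sum_const,
    ← Nat.cast_smul_eq_nsmul ℂ, smul_smul, inv_mul_cancel₀ D.card_units_ne_zero, one_smul]

/-- **The trace.** -/
theorem trace_hecke (n : ℕ+) (tr : ℍ[ℚ] → ℤ) (htr : ∀ x ∈ D.elems n, 2 * x.re = (tr x : ℚ)) :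
    LinearMap.trace ℂ (D.forms j) (D.hecke j n) =
      ((D.elems 1).card : ℂ)⁻¹ *
        ∑ x ∈ D.elems n, (QuaternionClasses.lucas (tr x) (n : ℕ) j : ℂ) := by
  rw [hecke, LinearMap.trace_restrict_eq_of_forall_mem _ _ (D.average_mem j n), average, map_smul,
    smul_eq_mul, map_sum]
  refine congrArg _ (Finset.sum_congr rfl fun x hx => ?_)
  rw [act, Matrix.trace_toLin'_eq]
  refine trace_symMat j ?_ ?_ (by exact_mod_cast n.ne_zero)
  · rw [trace_toMat, htr x hx]
    push_cast
    rfl
  · rw [det_toMat, ((D.mem_elems n x).1 hx).2]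
    push_cast
    rfl

/-- The dimension is the trace at `1`. -/
theorem finrank_forms :
    (Module.finrank ℂ (D.forms j) : ℂ) = LinearMap.trace ℂ (D.forms j) (D.hecke j 1) := by
  rw [hecke_one, LinearMap.trace_one]

end NormData

end FA.QuaternionJL

end
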