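import Fermat.Agent.QuaternionJL.Vectors

/-!
# The elements of given norm in the two definite orders

An element of Hurwitz's order of norm `n` is `(t + x i + y j + z k) / 2` with `x² + y² + z²` equal
to `4 n - t²`; it lies in the Eichler order of level `3`, the intersection of Hurwitz's order with
its conjugate by `1 + i + j`, exactly if its vector fixes the first line.
-/

set_option autoImplicit false
set_option linter.unusedSectionVars false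
set_option linter.style.haveILetI false

noncomputable section

open Quaternion
open scoped Quaternion
open FA.HurwitzQ (Hz ofCoords reps mem_reps lip)

namespace FA.QuaternionJL

/-- The quaternion `1 + i + j` of norm `3`. -/
def alpha : ℍ[ℚ] := lip 1 1 1 0

theorem normSq_alpha : normSq alpha = 3 := by
  rw [normSq_def']
  norm_num [alpha, lip]

theorem alpha_ne_zero : alpha ≠ 0 := fun h => by
  have := normSq_alpha
  rw [h, map_zero] at this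
  norm_num at this

/-- Conjugation by `1 + i + j`. -/
def conjAlpha : ℍ[ℚ] →+* ℍ[ℚ] where
  toFun x := alpha⁻¹ * x * alpha
  map_one' := by rw [mul_one, inv_mul_cancel₀ alpha_ne_zero]
  map_mul' x y := by simp [mul_assoc, mul_inv_cancel_left₀ alpha_ne_zero]
  map_zero' := by simp
  map_add' x y := by rw [mul_add, add_mul]

/-- **The Eichler order of level `3`** in Hurwitz's order. -/
def eichler3 : Subring ℍ[ℚ] := Hz ⊓ Hz.comap conjAlpha

theorem mem_eichler3 {x : ℍ[ℚ]} : x ∈ eichler3 ↔ x ∈ Hz ∧ alpha⁻¹ * x * alpha ∈ Hz := Iff.rfl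

/-- The quaternion of a trace and a vector. -/
def toQ (p : (_ : ℤ) × (ℤ × ℤ × ℤ)) : ℍ[ℚ] :=
  ⟨(p.1 : ℚ) / 2, (p.2.1 : ℚ) / 2, (p.2.2.1 : ℚ) / 2, (p.2.2.2 : ℚ) / 2⟩

theorem toQ_injective : Function.Injective toQ := by
  rintro ⟨t, x, y, z⟩ ⟨t', x', y', z'⟩ h
  simp [toQ, Quaternion.ext_iff, div_left_inj' (two_ne_zero' ℚ)] at h
  obtain ⟨rfl, rfl, rfl, rfl⟩ := h
  rfl

theorem toQ_mem_iff (p : (_ : ℤ) × (ℤ × ℤ × ℤ)) :
    toQ p ∈ Hz ↔ (2 : ℤ) ∣ p.2.1 - p.1 ∧ (2 : ℤ) ∣ p.2.2.1 - p.1 ∧ (2 : ℤ) ∣ p.2.2.2 - p.1 := by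
  constructor
  · rintro ⟨⟨a, b, c, d⟩, h⟩
    simp only [toQ, ofCoords, Quaternion.ext_iff] at h
    obtain ⟨h0, h1, h2, h3⟩ := h
    have e0 : d = p.1 := by exact_mod_cast (div_left_inj' (two_ne_zero' ℚ)).1 h0
    subst e0
    refine ⟨⟨a, ?_⟩, ⟨b, ?_⟩, ⟨c, ?_⟩⟩
    · have : ((p.2.1 - p.1 : ℤ) : ℚ) = ((2 * a : ℤ) : ℚ) := by push_cast; linarith
      exact_mod_cast this
    · have : ((p.2.2.1 - p.1 : ℤ) : ℚ) = ((2 * b : ℤ) : ℚ) := by push_cast; linarith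
      exact_mod_cast this
    · have : ((p.2.2.2 - p.1 : ℤ) : ℚ) = ((2 * c : ℤ) : ℚ) := by push_cast; linarith
      exact_mod_cast this
  · obtain ⟨t, x, y, z⟩ := p
    rintro ⟨⟨a, ha⟩, ⟨b, hb⟩, ⟨c, hc⟩⟩
    simp only at ha hb hc
    obtain rfl : x = t + 2 * a := by linarith
    obtain rfl : y = t + 2 * b := by linarith
    obtain rfl : z = t + 2 * c := by linarith
    exact ⟨(a, b, c, t), by ext <;> simp [toQ, ofCoords] <;> ring⟩

theorem exists_toQ {x : ℍ[ℚ]} (hx : x ∈ Hz) : ∃ p, toQ p = x := by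
  obtain ⟨⟨a, b, c, d⟩, rfl⟩ := hx
  exact ⟨⟨d, 2 * a + d, 2 * b + d, 2 * c + d⟩, by ext <;> simp [toQ, ofCoords] <;> ring⟩

theorem normSq_toQ (p : (_ : ℤ) × (ℤ × ℤ × ℤ)) :
    normSq (toQ p) = ((p.1 ^ 2 + sqNorm p.2 : ℤ) : ℚ) / 4 := by
  rw [normSq_def', sqNorm]
  simp only [toQ]
  push_cast
  ring

theorem re_toQ (p : (_ : ℤ) × (ℤ × ℤ × ℤ)) : 2 * (toQ p).re = (p.1 : ℚ) := by
  simp [toQ]
  ring

theorem parity_of_norm {n : ℕ} {p : (_ : ℤ) × (ℤ × ℤ × ℤ)}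
    (h : p.1 ^ 2 + sqNorm p.2 = 4 * (n : ℤ)) : toQ p ∈ Hz := by
  rw [toQ_mem_iff]
  have key : ∀ t x y z : ZMod 4, t ^ 2 + (x ^ 2 + y ^ 2 + z ^ 2) = 0 →
      2 * (x - t) = 0 ∧ 2 * (y - t) = 0 ∧ 2 * (z - t) = 0 := by decide +kernel
  have h4 := congrArg (fun z : ℤ => (z : ZMod 4)) h
  simp only [sqNorm] at h4
  push_cast at h4
  obtain ⟨h1, h2, h3⟩ := key p.1 p.2.1 p.2.2.1 p.2.2.2 (by rw [h4, show (4 : ZMod 4) = 0 from rfl,
    zero_mul])
  have key2 : ∀ u : ℤ, 2 * (u : ZMod 4) = 0 → (2 : ℤ) ∣ u := fun u hu => by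
    have h' : ((2 * u : ℤ) : ZMod 4) = 0 := by push_cast; exact hu
    rw [ZMod.intCast_zmod_eq_zero_iff_dvd] at h'
    omega
  exact ⟨key2 _ (by push_cast; exact h1), key2 _ (by push_cast; exact h2),
    key2 _ (by push_cast; exact h3)⟩

theorem toQ_mem_eichler3 {p : (_ : ℤ) × (ℤ × ℤ × ℤ)} (hp : toQ p ∈ Hz) :
    toQ p ∈ eichler3 ↔ Fixes 0 p.2 := by
  rw [mem_eichler3, and_iff_right hp, fixes_iff]
  obtain ⟨p1, p2, p3⟩ := (toQ_mem_iff p).1 hp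
  have hinv : alpha⁻¹ = (3 : ℚ)⁻¹ • star alpha := by
    rw [Quaternion.inv_def, normSq_alpha]
  have hval : alpha⁻¹ * toQ p * alpha = ⟨(p.1 : ℚ) / 2, ((rotT 0 p.2).1 : ℚ) / 6,
      ((rotT 0 p.2).2.1 : ℚ) / 6, ((rotT 0 p.2).2.2 : ℚ) / 6⟩ := by
    rw [hinv, smul_mul_assoc, smul_mul_assoc]
    ext <;> simp [alpha, lip, toQ, rotT, sgn] <;> ring
  rw [hval]
  constructor
  · intro h
    obtain ⟨⟨t, u⟩, hu⟩ := exists_toQ h
    simp only [toQ, Quaternion.ext_iff] at hu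
    obtain ⟨-, h1, h2, h3⟩ := hu
    refine ⟨⟨u.1, ?_⟩, ⟨u.2.1, ?_⟩, ⟨u.2.2, ?_⟩⟩
    · have : ((rotT 0 p.2).1 : ℚ) = ((3 * u.1 : ℤ) : ℚ) := by push_cast; linarith
      exact_mod_cast this
    · have : ((rotT 0 p.2).2.1 : ℚ) = ((3 * u.2.1 : ℤ) : ℚ) := by push_cast; linarith
      exact_mod_cast this
    · have : ((rotT 0 p.2).2.2 : ℚ) = ((3 * u.2.2 : ℤ) : ℚ) := by push_cast; linarith
      exact_mod_cast this
  · rintro ⟨⟨a, ha⟩, ⟨b, hb⟩, ⟨c, hc⟩⟩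
    have e : toQ ⟨p.1, a, b, c⟩ ∈ Hz := by
      rw [toQ_mem_iff]
      show (2 : ℤ) ∣ a - p.1 ∧ (2 : ℤ) ∣ b - p.1 ∧ (2 : ℤ) ∣ c - p.1
      simp [rotT, sgn] at ha hb hc
      omega
    rw [ha, hb, hc]
    convert e using 1
    ext <;> simp [toQ] <;> ring

/-- The traces of the elements of norm `n`. -/
def traces (n : ℕ) : Finset ℤ :=
  (Finset.Icc (-(2 * (n : ℤ))) (2 * (n : ℤ))).filter fun t => t ^ 2 ≤ 4 * (n : ℤ)

theorem mem_traces {n : ℕ} {t : ℤ} : t ∈ traces n ↔ t ^ 2 ≤ 4 * (n : ℤ) := by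
  refine ⟨fun h => (Finset.mem_filter.1 h).2, fun h => Finset.mem_filter.2 ⟨?_, h⟩⟩
  rcases Nat.eq_zero_or_pos n with rfl | hn
  · obtain rfl : t = 0 := (pow_eq_zero_iff two_ne_zero).1
      (le_antisymm (by simpa using h) (sq_nonneg t))
    simp
  · rw [Finset.mem_Icc]
    constructor <;> nlinarith

/-- The pairs of a trace and a vector of norm `n`. -/
def normPts (n : ℕ) : Finset ((_ : ℤ) × (ℤ × ℤ × ℤ)) :=
  (traces n).sigma fun t => reps (4 * (n : ℤ) - t ^ 2).toNat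

theorem mem_normPts {n : ℕ} {p : (_ : ℤ) × (ℤ × ℤ × ℤ)} :
    p ∈ normPts n ↔ p.1 ^ 2 + sqNorm p.2 = 4 * (n : ℤ) := by
  rw [normPts, Finset.mem_sigma, mem_traces, mem_reps]
  constructor
  · rintro ⟨h1, h2⟩
    rw [Int.toNat_of_nonneg (by linarith)] at h2
    rw [sqNorm]
    linarith
  · intro h
    have h0 : 0 ≤ sqNorm p.2 := by
      rw [sqNorm]
      positivity
    refine ⟨by linarith, ?_⟩
    rw [Int.toNat_of_nonneg (by linarith)]
    rw [sqNorm] at h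
    linarith

/-- The elements of norm `n` of Hurwitz's order. -/
def normHz (n : ℕ) : Finset ℍ[ℚ] := (normPts n).map ⟨toQ, toQ_injective⟩

/-- The elements of norm `n` of the Eichler order of level `3`. -/
def normE3 (n : ℕ) : Finset ℍ[ℚ] :=
  ((normPts n).filter fun p => Fixes 0 p.2).map ⟨toQ, toQ_injective⟩

theorem mem_normHz {n : ℕ} {x : ℍ[ℚ]} : x ∈ normHz n ↔ x ∈ Hz ∧ normSq x = (n : ℚ) := by
  simp only [normHz, Finset.mem_map, Function.Embedding.coeFn_mk]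
  constructor
  · rintro ⟨p, hp, rfl⟩
    rw [mem_normPts] at hp
    refine ⟨parity_of_norm hp, ?_⟩
    rw [normSq_toQ, hp]
    push_cast
    ring
  · rintro ⟨hx, hn⟩
    obtain ⟨p, rfl⟩ := exists_toQ hx
    refine ⟨p, mem_normPts.2 ?_, rfl⟩
    rw [normSq_toQ] at hn
    have : ((p.1 ^ 2 + sqNorm p.2 : ℤ) : ℚ) = ((4 * (n : ℤ) : ℤ) : ℚ) := by
      push_cast at hn ⊢
      linarith
    exact_mod_cast this

theorem mem_normE3 {n : ℕ} {x : ℍ[ℚ]} : x ∈ normE3 n ↔ x ∈ eichler3 ∧ normSq x = (n : ℚ) := by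
  have hkey : ∀ p ∈ normPts n, toQ p ∈ eichler3 ↔ Fixes 0 p.2 := fun p hp =>
    toQ_mem_eichler3 (parity_of_norm (mem_normPts.1 hp))
  constructor
  · intro h
    simp only [normE3, Finset.mem_map, Finset.mem_filter, Function.Embedding.coeFn_mk] at h
    obtain ⟨p, ⟨hp, hf⟩, rfl⟩ := h
    exact ⟨(hkey p hp).2 hf, (mem_normHz.1 (Finset.mem_map_of_mem _ hp)).2⟩
  · rintro ⟨hx, hn⟩
    obtain ⟨p, hp, rfl⟩ := Finset.mem_map.1 (mem_normHz.2 ⟨(mem_eichler3.1 hx).1, hn⟩)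
    exact Finset.mem_map_of_mem _ (Finset.mem_filter.2 ⟨hp, (hkey p hp).1 hx⟩)

theorem card_units_values : (normHz 1).card = 24 ∧ (normE3 1).card = 6 := by
  simp only [normHz, normE3, Finset.card_map]
  decide +kernel

end FA.QuaternionJL

end
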