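import Fermat.Agent.QuaternionClasses.Arith
import Mathlib.Algebra.Polynomial.Roots
import Mathlib.Analysis.Complex.Polynomial.Basic

/-!
# The symmetric powers of a two by two matrix

`symMat j g` is the matrix of `g` on the binary forms of degree `j`; it is multiplicative and its
trace is the value of the Lucas sequence of the trace and determinant of `g`.
-/

set_option autoImplicit false
set_option linter.unusedSectionVars false
set_option linter.style.haveILetI false

noncomputable section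

open Polynomial Matrix

namespace FA.QuaternionJL

/-- The image of the `k`-th monomial of degree `j`, dehomogenised. -/
def symRow (j : ℕ) (g : Matrix (Fin 2) (Fin 2) ℂ) (k : ℕ) : ℂ[X] :=
  (C (g 0 0) * X + C (g 0 1)) ^ k * (C (g 1 0) * X + C (g 1 1)) ^ (j - k)

/-- The symmetric power. -/
def symMat (j : ℕ) (g : Matrix (Fin 2) (Fin 2) ℂ) : Matrix (Fin (j + 1)) (Fin (j + 1)) ℂ :=
  Matrix.of fun k l => (symRow j g k).coeff l

theorem natDegree_symRow {j k : ℕ} (hk : k ≤ j) (g : Matrix (Fin 2) (Fin 2) ℂ) :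
    (symRow j g k).natDegree ≤ j := by
  have h1 : ∀ a b : ℂ, (C a * X + C b).natDegree ≤ 1 := fun a b =>
    natDegree_linear_le
  refine natDegree_mul_le.trans (le_trans (Nat.add_le_add natDegree_pow_le natDegree_pow_le) ?_)
  calc k * (C (g 0 0) * X + C (g 0 1)).natDegree +
        (j - k) * (C (g 1 0) * X + C (g 1 1)).natDegree ≤ k * 1 + (j - k) * 1 :=
        Nat.add_le_add (Nat.mul_le_mul_left k (h1 _ _)) (Nat.mul_le_mul_left _ (h1 _ _))
    _ = j := by omega

theorem sum_symMat {j : ℕ} (g : Matrix (Fin 2) (Fin 2) ℂ) (k : Fin (j + 1)) (z : ℂ) :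
    ∑ l, symMat j g k l * z ^ (l : ℕ) =
      (g 0 0 * z + g 0 1) ^ (k : ℕ) * (g 1 0 * z + g 1 1) ^ (j - k) := by
  have h := eval_eq_sum_range' (Nat.lt_succ_of_le (natDegree_symRow (Nat.le_of_lt_succ k.2) g)) z
  rw [Finset.sum_range] at h
  refine h.symm.trans ?_
  simp [symRow]

theorem sum_symMat_hom {j : ℕ} (g : Matrix (Fin 2) (Fin 2) ℂ) (k : Fin (j + 1)) {u v : ℂ}
    (hv : v ≠ 0) : ∑ l, symMat j g k l * (u ^ (l : ℕ) * v ^ (j - l)) =
      (g 0 0 * u + g 0 1 * v) ^ (k : ℕ) * (g 1 0 * u + g 1 1 * v) ^ (j - k) := by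
  have e : ∀ l : Fin (j + 1),
      symMat j g k l * (u ^ (l : ℕ) * v ^ (j - l)) =
        v ^ j * (symMat j g k l * (u / v) ^ (l : ℕ)) := fun l => by
    rw [show v ^ j = v ^ (l : ℕ) * v ^ (j - l) by
      rw [← pow_add, Nat.add_sub_cancel' (Nat.le_of_lt_succ l.2)], div_pow]
    field_simp
  rw [Finset.sum_congr rfl fun l _ => e l, ← Finset.mul_sum, sum_symMat,
    show v ^ j = v ^ (k : ℕ) * v ^ (j - k) by
      rw [← pow_add, Nat.add_sub_cancel' (Nat.le_of_lt_succ k.2)], mul_mul_mul_comm, ← mul_pow,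
    ← mul_pow, mul_add, mul_add, ← mul_assoc, ← mul_assoc, mul_comm v (g 0 0), mul_comm v (g 1 0),
    mul_assoc, mul_assoc, mul_div_cancel₀ _ hv, mul_comm v (g 0 1), mul_comm v (g 1 1)]

theorem finite_linear_zero {a b : ℂ} (h : a ≠ 0 ∨ b ≠ 0) : {z : ℂ | a * z + b = 0}.Finite := by
  refine Set.Subsingleton.finite fun x hx y hy => ?_
  simp only [Set.mem_ofPred_eq] at hx hy
  have ha : a ≠ 0 := fun h0 => by
    rw [h0, zero_mul, zero_add] at hx
    exact h.elim (fun h1 => h1 h0) fun h1 => h1 hx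
  exact mul_left_cancel₀ ha (by linear_combination hx - hy)

theorem symMat_mul (j : ℕ) {g h : Matrix (Fin 2) (Fin 2) ℂ} (hh : h.det ≠ 0) :
    symMat j (g * h) = symMat j g * symMat j h := by
  have hrow : h 1 0 ≠ 0 ∨ h 1 1 ≠ 0 := by
    by_contra! hc
    exact hh (by rw [det_fin_two, hc.1, hc.2]; ring)
  ext k l
  rw [Matrix.mul_apply]
  have key : symRow j (g * h) k =
      ∑ i : Fin (j + 1), C (symMat j g k i) * symRow j h i := by
    refine eq_of_infinite_eval_eq _ _ ((finite_linear_zero hrow).infinite_compl.mono fun z hz => ?_)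
    simp only [Set.mem_compl_iff, Set.mem_ofPred_eq] at hz ⊢
    rw [eval_finsetSum]
    simp only [eval_mul, eval_C, symRow, eval_pow, eval_add, eval_X]
    rw [sum_symMat_hom g k hz]
    simp [Matrix.mul_apply, Fin.sum_univ_two]
    ring
  have := congrArg (fun p : ℂ[X] => p.coeff l) key
  simp only [finsetSum_coeff, coeff_C_mul] at this
  exact this

theorem symMat_one (j : ℕ) : symMat j 1 = 1 := by
  ext k l
  simp [symMat, symRow, coeff_X_pow, Matrix.one_apply, Fin.val_inj, eq_comm]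

theorem coeff_linear_pow (a b : ℂ) (k : ℕ) : ((C a * X + C b) ^ k).coeff k = a ^ k := by
  have h := coeff_pow_of_natDegree_le (p := C a * X + C b) (n := 1) natDegree_linear_le (m := k)
  rw [mul_one] at h
  rw [h]
  simp

theorem trace_upper (j : ℕ) (a b d : ℂ) :
    (symMat j !![a, b; 0, d]).trace = ∑ k ∈ Finset.range (j + 1), a ^ k * d ^ (j - k) := by
  rw [Finset.sum_range, Matrix.trace]
  refine Finset.sum_congr rfl fun k _ => ?_
  show ((C a * X + C b) ^ (k : ℕ) * (C 0 * X + C d) ^ (j - k)).coeff k = _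
  rw [C_0, zero_mul, zero_add, ← C_pow, coeff_mul_C, coeff_linear_pow]

theorem lucas_geom {t n : ℤ} {a d : ℂ} (ht : a + d = (t : ℂ)) (hn : a * d = (n : ℂ)) :
    ∀ j : ℕ, ∑ k ∈ Finset.range (j + 1), a ^ k * d ^ (j - k) =
      (QuaternionClasses.lucas t n j : ℂ) := by
  have hrec : ∀ i, ∑ k ∈ Finset.range (i + 2), a ^ k * d ^ (i + 1 - k) =
      d * (∑ k ∈ Finset.range (i + 1), a ^ k * d ^ (i - k)) + a ^ (i + 1) := fun i => by
    rw [Finset.sum_range_succ, Finset.mul_sum, Nat.sub_self, pow_zero, mul_one]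
    refine congrArg (· + _) (Finset.sum_congr rfl fun k hk => ?_)
    rw [Finset.mem_range] at hk
    rw [show i + 1 - k = (i - k) + 1 by omega]
    ring
  intro j
  induction j using Nat.strong_induction_on with
  | _ j ih =>
    match j with
    | 0 => simp [QuaternionClasses.lucas]
    | 1 => simp [Finset.sum_range_succ, QuaternionClasses.lucas, ← ht]; ring
    | i + 2 =>
      rw [QuaternionClasses.lucas]
      push_cast
      rw [← ih (i + 1) (by omega), ← ih i (by omega), hrec (i + 1), ← ht, ← hn, hrec i]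
      ring

/-- **The trace of a symmetric power.** -/
theorem trace_symMat (j : ℕ) {g : Matrix (Fin 2) (Fin 2) ℂ} {t n : ℤ} (ht : g.trace = (t : ℂ))
    (hn : g.det = (n : ℂ)) (hn0 : n ≠ 0) :
    (symMat j g).trace = (QuaternionClasses.lucas t n j : ℂ) := by
  rw [trace_fin_two] at ht
  rw [det_fin_two] at hn
  by_cases hc : g 1 0 = 0
  · rw [show g = !![g 0 0, g 0 1; 0, g 1 1] by rw [← hc]; exact eta_fin_two g, trace_upper]
    exact lucas_geom ht (by rw [← hn, hc, mul_zero, sub_zero]) j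
  · obtain ⟨s, hs⟩ := IsAlgClosed.exists_pow_nat_eq ((t : ℂ) ^ 2 - 4 * (n : ℂ)) zero_lt_two
    set r : ℂ := ((t : ℂ) + s) / 2
    have hr : r ^ 2 - t * r + n = 0 := by
      simp only [r]
      linear_combination hs / 4
    set P : Matrix (Fin 2) (Fin 2) ℂ := !![r - g 1 1, 1; g 1 0, 0]
    have hP : P.det ≠ 0 := by
      simp [P, det_fin_two, hc]
    have hgP : g * P = P * !![r, 1; 0, (t : ℂ) - r] := by
      simp only [P]
      ext i l
      fin_cases i <;> fin_cases l <;> simp [Matrix.mul_apply, Fin.sum_univ_two]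
      · linear_combination -hr + r * ht - hn
      · linear_combination ht
      · ring
    have hPi : P⁻¹.det ≠ 0 := by
      rw [det_nonsing_inv, Ring.inverse_eq_inv']
      exact inv_ne_zero hP
    have hg : g = P * (!![r, 1; 0, (t : ℂ) - r] * P⁻¹) := by
      rw [← Matrix.mul_assoc, ← hgP, Matrix.mul_assoc, Matrix.mul_nonsing_inv _ (Ne.isUnit hP),
        Matrix.mul_one]
    have hT : (!![r, 1; 0, (t : ℂ) - r] * P⁻¹).det ≠ 0 := fun h0 => hn0 (by
      have : (n : ℂ) = 0 := by rw [← hn, ← det_fin_two, hg, det_mul, h0, mul_zero]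
      exact_mod_cast this)
    rw [hg, symMat_mul j hT, symMat_mul j hPi, ← Matrix.mul_assoc, Matrix.trace_mul_cycle,
      ← symMat_mul j hP, Matrix.nonsing_inv_mul _ (Ne.isUnit hP), symMat_one, Matrix.one_mul,
      trace_upper]
    exact lucas_geom (by ring) (by linear_combination -hr) j

end FA.QuaternionJL

end
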