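import Fermat.Agent.QuaternionJL.Orders
import Fermat.Agent.QuaternionJL.Invariants
import Fermat.Agent.QuaternionClasses.Formula

/-!
# The comparison of the traces

In every weight `2 m ≥ 4` the trace of the Hecke operator on the curve of discriminant `6` is the
trace on the algebraic modular forms of the Eichler order of level `3` less twice that on those of
Hurwitz's order.
-/

set_option autoImplicit false
set_option linter.unusedSectionVars false
set_option linter.style.haveILetI false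

noncomputable section

open Quaternion
open scoped Quaternion
open FA.CocompactForms FA.QuaternionHecke
open FA.QuaternionClasses (lucas quatClassNumber tset mem_tset trace_explicit)

namespace FA.QuaternionJL

/-- Hurwitz's order with its elements of each norm. -/
def hurwitzData : NormData := ⟨FA.HurwitzQ.Hz, normHz, fun _ _ => mem_normHz⟩

/-- The Eichler order of level `3` with its elements of each norm. -/
def eichlerData : NormData := ⟨eichler3, normE3, fun _ _ => mem_normE3⟩

/-- The trace of a quaternion of the order. -/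
def quatTr (x : ℍ[ℚ]) : ℤ := ⌊2 * x.re⌋

theorem quatTr_toQ (p : (_ : ℤ) × (ℤ × ℤ × ℤ)) : quatTr (toQ p) = p.1 := by
  rw [quatTr, re_toQ, Int.floor_intCast]

theorem two_re {n : ℕ} {x : ℍ[ℚ]} (hx : x ∈ normHz n) : 2 * x.re = (quatTr x : ℚ) := by
  obtain ⟨p, -, rfl⟩ := Finset.mem_map.1 hx
  show 2 * (toQ p).re = (quatTr (toQ p) : ℚ)
  rw [re_toQ, quatTr_toQ]

theorem normE3_subset (n : ℕ) : normE3 n ⊆ normHz n := fun _ hx =>
  mem_normHz.2 ⟨(mem_eichler3.1 (mem_normE3.1 hx).1).1, (mem_normE3.1 hx).2⟩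

theorem trace_hurwitz (j : ℕ) (n : ℕ+) :
    LinearMap.trace ℂ (hurwitzData.forms j) (hurwitzData.hecke j n) =
      (24 : ℂ)⁻¹ * ∑ t ∈ traces n,
        ((HurwitzQ.reps (4 * ((n : ℕ) : ℤ) - t ^ 2).toNat).card : ℂ) *
          (lucas t (n : ℕ) j : ℂ) := by
  rw [hurwitzData.trace_hecke j n quatTr fun x hx => two_re hx,
    show (hurwitzData.elems 1).card = 24 from card_units_values.1,
    show hurwitzData.elems (n : ℕ) = normHz n from rfl, normHz, Finset.sum_map, normPts,
    Finset.sum_sigma]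
  simp [quatTr_toQ]

theorem trace_eichler (j : ℕ) (n : ℕ+) :
    LinearMap.trace ℂ (eichlerData.forms j) (eichlerData.hecke j n) =
      (6 : ℂ)⁻¹ * ∑ t ∈ traces n,
        ((lineReps (4 * ((n : ℕ) : ℤ) - t ^ 2).toNat 0).card : ℂ) * (lucas t (n : ℕ) j : ℂ) := by
  rw [eichlerData.trace_hecke j n quatTr fun x hx => two_re (normE3_subset n hx),
    show (eichlerData.elems 1).card = 6 from card_units_values.2,
    show eichlerData.elems (n : ℕ) = normE3 n from rfl, normE3, Finset.sum_map,
    Finset.sum_filter, normPts, Finset.sum_sigma]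
  simp [quatTr_toQ, ← Finset.sum_filter, lineReps]

theorem trace_difference (j : ℕ) (n : ℕ+) :
    LinearMap.trace ℂ (eichlerData.forms j) (eichlerData.hecke j n) -
        2 * LinearMap.trace ℂ (hurwitzData.forms j) (hurwitzData.hecke j n) =
      (24 : ℂ)⁻¹ * ∑ t ∈ traces n,
        (fixSum (4 * ((n : ℕ) : ℤ) - t ^ 2).toNat : ℂ) * (lucas t (n : ℕ) j : ℂ) := by
  rw [trace_hurwitz, trace_eichler, ← mul_assoc, Finset.mul_sum, Finset.mul_sum, Finset.mul_sum,
    ← Finset.sum_sub_distrib]
  refine Finset.sum_congr rfl fun t _ => ?_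
  rw [fixSum_eq_line]
  push_cast
  ring

theorem lucas_double (r : ℤ) : ∀ i : ℕ, lucas (2 * r) (r ^ 2) i = (i + 1) * r ^ i := by
  intro i
  induction i using Nat.strong_induction_on with
  | _ i ih =>
    match i with
    | 0 => simp [lucas]
    | 1 => simp [lucas]
    | i + 2 =>
      rw [lucas, ih (i + 1) (by omega), ih i (by omega)]
      push_cast
      ring

theorem fixSum_zero : fixSum 0 = 2 := by decide +kernel

theorem elliptic_value {n : ℕ} {t : ℤ} (ht : t ∈ tset n) :
    (fixSum (4 * (n : ℤ) - t ^ 2).toNat : ℂ) =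
      -12 * (quatClassNumber (4 * (n : ℤ) - t ^ 2).toNat : ℂ) := by
  have ht' := mem_tset.1 ht
  have h4 : t ^ 2 % 4 = 0 ∨ t ^ 2 % 4 = 1 := by
    obtain ⟨w, rfl | rfl⟩ := Int.even_or_odd' t <;> ring_nf <;> omega
  have h := fixSum_eq (4 * (n : ℤ) - t ^ 2).toNat (by omega) (by omega)
  have h' := congrArg (fun q : ℚ => (q : ℂ)) h
  push_cast at h'
  exact h'

theorem sum_traces {M : Type*} [AddCommMonoid M] (n : ℕ) (F : ℤ → M) :
    ∑ t ∈ traces n, F t = (∑ t ∈ tset n, F t) +
      ∑ t ∈ (traces n).filter (fun t => t ^ 2 = 4 * (n : ℤ)), F t := by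
  rw [← Finset.sum_filter_not_add_sum_filter (traces n) (fun t => t ^ 2 = 4 * (n : ℤ))]
  refine congrArg (· + _) (Finset.sum_congr (Finset.ext fun t => ?_) fun _ _ => rfl)
  rw [Finset.mem_filter, mem_traces, mem_tset]
  omega

/-- **The comparison.** -/
theorem transfer {m : ℕ} (hm : 2 ≤ m) (n : ℕ+) :
    ((n : ℕ) : ℂ) ^ (m - 1) *
        LinearMap.trace ℂ (forms orderUnits ((2 * m : ℕ) : ℤ))
          (FA.QuaternionHecke.hecke ((2 * m : ℕ) : ℤ) n) =
      LinearMap.trace ℂ (eichlerData.forms (2 * m - 2)) (eichlerData.hecke (2 * m - 2) n) -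
        2 * LinearMap.trace ℂ (hurwitzData.forms (2 * m - 2))
          (hurwitzData.hecke (2 * m - 2) n) := by
  rw [trace_difference, trace_explicit n hm, sum_traces (n : ℕ), mul_add]
  rw [sub_eq_add_neg, add_comm]
  congr 1
  · rw [Finset.mul_sum, Finset.mul_sum, ← Finset.sum_neg_distrib]
    exact Finset.sum_congr rfl fun t ht => by rw [elliptic_value ht]; ring
  · by_cases hsq : IsSquare (n : ℕ)
    · obtain ⟨r, hr⟩ := hsq
      have hr0 : 0 < r := Nat.pos_of_ne_zero fun h => n.ne_zero (by rw [hr, h])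
      have hset : (traces n).filter (fun t => t ^ 2 = 4 * ((n : ℕ) : ℤ)) =
          {2 * (r : ℤ), 2 * (-(r : ℤ))} := by
        ext t
        rw [Finset.mem_filter, mem_traces, Finset.mem_insert, Finset.mem_singleton, hr]
        push_cast
        constructor
        · rintro ⟨-, h⟩
          rcases sq_eq_sq_iff_eq_or_eq_neg.1
            (show t ^ 2 = (2 * (r : ℤ)) ^ 2 by rw [h]; ring) with e | e
          · exact Or.inl e
          · exact Or.inr (by rw [e]; ring)
        · rintro (rfl | rfl) <;> exact ⟨le_of_eq (by ring), by ring⟩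
      rw [if_pos ⟨r, hr⟩, hset, Finset.sum_pair (by omega), hr]
      push_cast
      rw [← pow_two (r : ℤ), show (2 * -(r : ℤ)) ^ 2 = (2 * (r : ℤ)) ^ 2 by ring,
        show 4 * (r : ℤ) ^ 2 - (2 * (r : ℤ)) ^ 2 = 0 by ring, lucas_double,
        show (r : ℤ) ^ 2 = (-(r : ℤ)) ^ 2 by ring, lucas_double, Int.toNat_zero, fixSum_zero,
        show 2 * m - 2 = 2 * (m - 1) by omega]
      push_cast
      rw [neg_pow, pow_mul (-1 : ℂ), neg_one_sq, one_pow, one_mul, pow_mul, mul_pow, ← pow_two,
        ← pow_mul]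
      have hm' : ((m - 1 : ℕ) : ℂ) = (m : ℂ) - 1 := by rw [Nat.cast_sub (by omega), Nat.cast_one]
      rw [hm']
      ring
    · rw [if_neg hsq, Finset.sum_eq_zero fun t ht => ?_, mul_zero]
      exfalso
      obtain ⟨-, h⟩ := Finset.mem_filter.1 ht
      obtain ⟨u, rfl⟩ : (2 : ℤ) ∣ t :=
        Int.prime_two.dvd_of_dvd_pow (n := 2) ⟨2 * (n : ℕ), by linarith⟩
      exact hsq ⟨u.natAbs, Int.natCast_inj.1 (by
        push_cast
        rw [abs_mul_abs_self]
        linarith)⟩

/-- **Counting.** -/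
theorem trace_counting {m : ℕ} (hm : 2 ≤ m) (n : ℕ+) :
    ((n : ℕ) : ℂ) ^ (m - 1) *
        LinearMap.trace ℂ (forms orderUnits ((2 * m : ℕ) : ℤ))
          (FA.QuaternionHecke.hecke ((2 * m : ℕ) : ℤ) n) =
      (24 : ℂ)⁻¹ * ∑ p ∈ normPts n,
        ((fixCount p.2 : ℂ) - 2) * (lucas p.1 (n : ℕ) (2 * m - 2) : ℂ) := by
  rw [transfer hm, trace_difference, normPts, Finset.sum_sigma]
  refine congrArg _ (Finset.sum_congr rfl fun t _ => ?_)
  rw [fixSum]
  push_cast
  rw [Finset.sum_mul]

/-- **The dimensions.** -/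
theorem dimension_transfer {m : ℕ} (hm : 2 ≤ m) :
    Module.finrank ℂ (eichlerData.forms (2 * m - 2)) =
      Module.finrank ℂ (forms orderUnits ((2 * m : ℕ) : ℤ)) +
        2 * Module.finrank ℂ (hurwitzData.forms (2 * m - 2)) := by
  haveI := finiteDimensional_forms ((2 * m : ℕ) : ℤ)
  have h := transfer hm 1
  rw [FA.QuaternionHecke.hecke_one, LinearMap.trace_one, ← NormData.finrank_forms,
    ← NormData.finrank_forms, PNat.one_coe, Nat.cast_one, one_pow, one_mul] at h
  have h' : (Module.finrank ℂ (eichlerData.forms (2 * m - 2)) : ℂ) =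
      ((Module.finrank ℂ (forms orderUnits ((2 * m : ℕ) : ℤ)) +
        2 * Module.finrank ℂ (hurwitzData.forms (2 * m - 2)) : ℕ) : ℂ) := by
    rw [Nat.cast_add, Nat.cast_mul]
    push_cast at h ⊢
    linear_combination -h
  exact_mod_cast h'

end FA.QuaternionJL

end
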