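import Fermat.Agent.QuaternionJL.Forms

/-!
# Three squares and the four lines modulo `3`

Conjugation by the four quaternions `1 ± i ± j` of norm `3` gives four maps of `ℤ³` multiplying
norms by `9`. A vector is fixed by one of them if the transpose kills it modulo `3`, which is to
say that it fixes the corresponding line of `𝔽₃²`. Counting the images gives
`r₃(9 N) = 3 r₃(N) - ∑ (fix v - 2)`, and so the sum of `fix v - 2` over the representations of `N`
is `-12` times the class number with both factors.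
-/

set_option autoImplicit false
set_option linter.unusedSectionVars false
set_option linter.style.haveILetI false

noncomputable section

open FA.QuaternionClasses
open FA.HurwitzQ (reps mem_reps)

namespace FA.QuaternionJL

/-- The signs of the four quaternions of norm `3`. -/
def sgn : Fin 4 → ℤ × ℤ := ![(1, 1), (1, -1), (-1, 1), (-1, -1)]

variable {R : Type*} [CommRing R]

/-- Conjugation by `1 + ε i + δ j`. -/
def rot (j : Fin 4) (v : R × R × R) : R × R × R :=
  let e : R := (sgn j).1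
  let d : R := (sgn j).2
  (v.1 + 2 * e * d * v.2.1 + 2 * d * v.2.2, 2 * e * d * v.1 + v.2.1 - 2 * e * v.2.2,
    -2 * d * v.1 + 2 * e * v.2.1 - v.2.2)

/-- The transpose of `rot`. -/
def rotT (j : Fin 4) (v : R × R × R) : R × R × R :=
  let e : R := (sgn j).1
  let d : R := (sgn j).2
  (v.1 + 2 * e * d * v.2.1 - 2 * d * v.2.2, 2 * e * d * v.1 + v.2.1 + 2 * e * v.2.2,
    2 * d * v.1 - 2 * e * v.2.1 - v.2.2)

/-- The sum of the squares. -/
def sqNorm (v : R × R × R) : R := v.1 ^ 2 + v.2.1 ^ 2 + v.2.2 ^ 2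

theorem sgn_sq (j : Fin 4) : (sgn j).1 ^ 2 = 1 ∧ (sgn j).2 ^ 2 = 1 := by
  fin_cases j <;> simp [sgn]

theorem sqNorm_rot (j : Fin 4) (v : R × R × R) : sqNorm (rot j v) = 9 * sqNorm v := by
  fin_cases j <;> simp [sqNorm, rot, sgn] <;> ring

theorem rotT_rot (j : Fin 4) (v : R × R × R) :
    rotT j (rot j v) = (9 * v.1, 9 * v.2.1, 9 * v.2.2) := by
  fin_cases j <;> simp [rot, rotT, sgn] <;> (refine ⟨?_, ?_, ?_⟩ <;> ring)

theorem rot_rotT (j : Fin 4) (v : R × R × R) :
    rot j (rotT j v) = (9 * v.1, 9 * v.2.1, 9 * v.2.2) := by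
  fin_cases j <;> simp [rot, rotT, sgn] <;> (refine ⟨?_, ?_, ?_⟩ <;> ring)

theorem rot_smul (j : Fin 4) (k : R) (v : R × R × R) :
    rot j (k * v.1, k * v.2.1, k * v.2.2) =
      (k * (rot j v).1, k * (rot j v).2.1, k * (rot j v).2.2) := by
  simp only [rot, Prod.mk.injEq]
  refine ⟨?_, ?_, ?_⟩ <;> ring

/-- Reduction of a vector. -/
def red (m : ℕ) (v : ℤ × ℤ × ℤ) : ZMod m × ZMod m × ZMod m := (v.1, v.2.1, v.2.2)

theorem red_eq_zero {m : ℕ} {v : ℤ × ℤ × ℤ} :
    red m v = 0 ↔ (m : ℤ) ∣ v.1 ∧ (m : ℤ) ∣ v.2.1 ∧ (m : ℤ) ∣ v.2.2 := by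
  simp [red, Prod.ext_iff, ZMod.intCast_zmod_eq_zero_iff_dvd]

theorem red_rotT (m : ℕ) (j : Fin 4) (v : ℤ × ℤ × ℤ) : red m (rotT j v) = rotT j (red m v) := by
  simp [red, rotT]

theorem red_sqNorm (m : ℕ) (v : ℤ × ℤ × ℤ) :
    ((sqNorm v : ℤ) : ZMod m) = sqNorm (red m v) := by
  simp [red, sqNorm]

/-- Whether a vector fixes the line of `j`. -/
def Fixes (j : Fin 4) (v : ℤ × ℤ × ℤ) : Prop := rotT j (red 3 v) = 0

instance (j : Fin 4) (v : ℤ × ℤ × ℤ) : Decidable (Fixes j v) := decEq _ _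

/-- The number of the lines fixed. -/
def fixCount (v : ℤ × ℤ × ℤ) : ℕ := (Finset.univ.filter fun j => Fixes j v).card

theorem fixes_iff (j : Fin 4) (v : ℤ × ℤ × ℤ) :
    Fixes j v ↔ (3 : ℤ) ∣ (rotT j v).1 ∧ (3 : ℤ) ∣ (rotT j v).2.1 ∧ (3 : ℤ) ∣ (rotT j v).2.2 := by
  rw [Fixes, ← red_rotT, red_eq_zero]
  norm_num

theorem fix_mod_three : ∀ u : ZMod 3 × ZMod 3 × ZMod 3,
    (u = 0 → (Finset.univ.filter fun j => rotT j u = 0).card = 4) ∧
    (u ≠ 0 → (sqNorm u = 0 → (Finset.univ.filter fun j => rotT j u = 0).card = 1) ∧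
      (sqNorm u = 1 → (Finset.univ.filter fun j => rotT j u = 0).card = 0) ∧
      (sqNorm u = 2 → (Finset.univ.filter fun j => rotT j u = 0).card = 2)) := by
  decide +kernel

theorem deep_mod_nine : ∀ u : ZMod 9 × ZMod 9 × ZMod 9,
    sqNorm u = 0 → (3 * u.1 ≠ 0 ∨ 3 * u.2.1 ≠ 0 ∨ 3 * u.2.2 ≠ 0) →
      (Finset.univ.filter fun j => rotT j u = 0).card = 1 := by
  decide +kernel

theorem fixCount_of_not_nine {N : ℕ} (hN : ¬ 9 ∣ N) {v : ℤ × ℤ × ℤ} (hv : v ∈ reps N) :
    (fixCount v : ℤ) - 2 = -(threeCoef N : ℤ) := by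
  have hv' : sqNorm v = (N : ℤ) := mem_reps.1 hv
  have hne : red 3 v ≠ 0 := fun h => hN (by
    obtain ⟨⟨a, ha⟩, ⟨b, hb⟩, ⟨c, hc⟩⟩ := red_eq_zero.1 h
    refine Int.natCast_dvd_natCast.1 ⟨a ^ 2 + b ^ 2 + c ^ 2, ?_⟩
    rw [← hv', sqNorm, ha, hb, hc]
    push_cast
    ring)
  have hn : sqNorm (red 3 v) = ((N % 3 : ℕ) : ZMod 3) := by
    rw [ZMod.natCast_mod, ← red_sqNorm, hv', Int.cast_natCast]
  obtain ⟨h0, h1, h2⟩ := (fix_mod_three (red 3 v)).2 hne
  rcases (by omega : N % 3 = 0 ∨ N % 3 = 1 ∨ N % 3 = 2) with h | h | h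
  · rw [fixCount, threeCoef, if_pos h]
    simp only [Fixes]
    rw [h0 (by rw [hn, h]; rfl)]
    norm_num
  · rw [fixCount, threeCoef, if_neg (by omega), if_pos h]
    simp only [Fixes]
    rw [h1 (by rw [hn, h]; rfl)]
    norm_num
  · rw [fixCount, threeCoef, if_neg (by omega), if_neg (by omega)]
    simp only [Fixes]
    rw [h2 (by rw [hn, h]; rfl)]
    norm_num

/-- The sum of `fix - 2` over the representations. -/
def fixSum (N : ℕ) : ℤ := ∑ v ∈ reps N, ((fixCount v : ℤ) - 2)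

/-- Multiplication by `3`. -/
def triple (v : ℤ × ℤ × ℤ) : ℤ × ℤ × ℤ := (3 * v.1, 3 * v.2.1, 3 * v.2.2)

theorem triple_injective : Function.Injective triple := by
  rintro ⟨a, b, c⟩ ⟨a', b', c'⟩ h
  simpa [triple] using h

theorem filter_triple (N : ℕ) :
    (reps (9 * N)).filter (fun v => red 3 v = 0) = (reps N).image triple := by
  ext ⟨a, b, c⟩
  simp only [Finset.mem_filter, Finset.mem_image, mem_reps, red_eq_zero]
  constructor
  · rintro ⟨h, ⟨x, rfl⟩, ⟨y, rfl⟩, ⟨z, rfl⟩⟩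
    refine ⟨(x, y, z), ?_, by simp [triple]⟩
    push_cast at h
    linarith
  · rintro ⟨⟨x, y, z⟩, h, e⟩
    simp only [triple, Prod.mk.injEq] at e
    obtain ⟨rfl, rfl, rfl⟩ := e
    refine ⟨by push_cast; linear_combination 9 * h, ?_⟩
    norm_num

theorem sum_reps_nine (N : ℕ) (F : ℤ × ℤ × ℤ → ℤ) {c : ℤ}
    (hF : ∀ v ∈ reps (9 * N), red 3 v ≠ 0 → F v = c) :
    ∑ v ∈ reps (9 * N), F v =
      c * ((reps (9 * N)).card - (reps N).card) + ∑ u ∈ reps N, F (triple u) := by
  classical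
  rw [← Finset.sum_filter_add_sum_filter_not (reps (9 * N)) (fun v => red 3 v = 0), filter_triple,
    Finset.sum_image triple_injective.injOn, add_comm]
  congr 1
  rw [Finset.sum_congr rfl fun v hv =>
    hF v (Finset.mem_filter.1 hv).1 (Finset.mem_filter.1 hv).2, Finset.sum_const, nsmul_eq_mul]
  have e := (reps (9 * N)).card_filter_add_card_filter_not (fun v => red 3 v = 0)
  rw [filter_triple, Finset.card_image_of_injective _ triple_injective] at e
  rw [← e]
  push_cast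
  ring

theorem fixSum_nine_eq (N : ℕ) :
    fixSum (9 * N) = 3 * (reps N).card - (reps (9 * N)).card := by
  rw [fixSum, sum_reps_nine N (fun v => (fixCount v : ℤ) - 2) (c := -1) fun v hv hne => ?_]
  · have h4 : ∀ u, fixCount (triple u) = 4 := fun u => by
      rw [fixCount]
      exact (fix_mod_three _).1 (red_eq_zero.2 (by simp [triple]))
    simp [h4]
    ring
  · have hn : sqNorm (red 3 v) = 0 := by
      rw [← red_sqNorm, show sqNorm v = ((9 * N : ℕ) : ℤ) from mem_reps.1 hv,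
        ZMod.intCast_zmod_eq_zero_iff_dvd]
      exact ⟨3 * N, by push_cast; ring⟩
    rw [fixCount]
    simp only [Fixes]
    rw [((fix_mod_three _).2 hne).1 hn]
    norm_num

/-- Whether a vector is an image of `rot j`. -/
def Deep (j : Fin 4) (v : ℤ × ℤ × ℤ) : Prop := rotT j (red 9 v) = 0

instance (j : Fin 4) (v : ℤ × ℤ × ℤ) : Decidable (Deep j v) := decEq _ _

theorem deep_triple (j : Fin 4) (u : ℤ × ℤ × ℤ) : Deep j (triple u) ↔ Fixes j u := by
  rw [Deep, ← red_rotT, red_eq_zero, fixes_iff]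
  have e : rotT j (triple u) = triple (rotT j u) := by
    simp only [rotT, triple, Prod.mk.injEq]
    refine ⟨?_, ?_, ?_⟩ <;> ring
  rw [e]
  simp only [triple]
  norm_num
  omega

/-- **The relation for `r₃(9 N)`.** -/
theorem card_reps_nine (N : ℕ) :
    ((reps (9 * N)).card : ℤ) = 3 * (reps N).card - fixSum N := by
  classical
  have hdeep : ∑ v ∈ reps (9 * N), ((Finset.univ.filter fun j => Deep j v).card : ℤ) =
      4 * (reps N).card := by
    have hj : ∀ j, (((reps (9 * N)).filter fun v => Deep j v).card : ℤ) = (reps N).card :=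
        fun j => by
      refine congrArg _ (Finset.card_nbij' (fun v => ((rotT j v).1 / 9, (rotT j v).2.1 / 9,
        (rotT j v).2.2 / 9)) (fun w => rot j w) (fun v hv => ?_) (fun w hw => ?_) (fun v hv => ?_)
        fun w _ => ?_)
      · obtain ⟨hv, hd⟩ := Finset.mem_filter.1 (Finset.mem_coe.1 hv)
        rw [Deep, ← red_rotT, red_eq_zero] at hd
        obtain ⟨⟨a, ha⟩, ⟨b, hb⟩, ⟨c, hc⟩⟩ := hd
        have h81 : sqNorm (rot j (rotT j v)) = 81 * ((9 * N : ℕ) : ℤ) := by
          rw [rot_rotT, ← show sqNorm v = ((9 * N : ℕ) : ℤ) from mem_reps.1 hv, sqNorm, sqNorm]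
          ring
        rw [sqNorm_rot, sqNorm, ha, hb, hc] at h81
        push_cast at h81
        simp only [Finset.mem_coe, mem_reps, ha, hb, hc]
        simp only [Nat.cast_ofNat,
          Int.mul_ediv_cancel_left _ (show (9 : ℤ) ≠ 0 by norm_num)] at h81 ⊢
        linarith
      · refine Finset.mem_coe.2 (Finset.mem_filter.2 ⟨mem_reps.2 ?_, ?_⟩)
        · show sqNorm (rot j w) = _
          rw [sqNorm_rot, show sqNorm w = (N : ℤ) from mem_reps.1 hw]
          push_cast
          ring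
        · rw [Deep, ← red_rotT, rotT_rot, red_eq_zero]
          norm_num
      · obtain ⟨-, hd⟩ := Finset.mem_filter.1 (Finset.mem_coe.1 hv)
        rw [Deep, ← red_rotT, red_eq_zero] at hd
        obtain ⟨⟨a, ha⟩, ⟨b, hb⟩, ⟨c, hc⟩⟩ := hd
        have e := rot_smul j 9 (a, b, c)
        have e2 := rot_rotT j v
        rw [show rotT j v = (9 * a, 9 * b, 9 * c) by simp [Prod.ext_iff, ha, hb, hc], e] at e2
        simp only [Prod.mk.injEq] at e2
        simp only [ha, hb, hc, Nat.cast_ofNat,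
          Int.mul_ediv_cancel_left _ (show (9 : ℤ) ≠ 0 by norm_num)]
        ext <;> linarith [e2.1, e2.2.1, e2.2.2]
      · simp [rotT_rot]
    rw [show (4 : ℤ) * (reps N).card = ∑ _j : Fin 4, ((reps N).card : ℤ) by simp]
    rw [← Finset.sum_congr rfl fun j _ => hj j]
    simp only [Finset.card_filter, Nat.cast_sum]
    exact Finset.sum_comm
  rw [sum_reps_nine N _ (c := 1) fun v hv hne => ?_] at hdeep
  · simp only [deep_triple] at hdeep
    rw [fixSum, Finset.sum_sub_distrib, Finset.sum_const, nsmul_eq_mul]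
    unfold fixCount
    linarith
  · have hn : sqNorm (red 9 v) = 0 := by
      rw [← red_sqNorm, show sqNorm v = ((9 * N : ℕ) : ℤ) from mem_reps.1 hv,
        ZMod.intCast_zmod_eq_zero_iff_dvd]
      exact ⟨N, by push_cast; ring⟩
    refine congrArg _ ?_
    simp only [Deep]
    refine deep_mod_nine _ hn ?_
    contrapose! hne
    obtain ⟨h1, h2, h3⟩ := hne
    have key : ∀ x : ℤ, 3 * (x : ZMod 9) = 0 → (3 : ℤ) ∣ x := fun x h => by
      have h' : ((3 * x : ℤ) : ZMod 9) = 0 := by push_cast; exact h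
      rw [ZMod.intCast_zmod_eq_zero_iff_dvd] at h'
      omega
    exact red_eq_zero.2 ⟨key _ h1, key _ h2, key _ h3⟩

theorem fixSum_nine (N : ℕ) : fixSum (9 * N) = fixSum N := by
  rw [fixSum_nine_eq, card_reps_nine]
  ring

/-- **The sum over the lines.** -/
theorem fixSum_eq : ∀ N : ℕ, 0 < N → (N % 4 = 0 ∨ N % 4 = 3) →
    (fixSum N : ℚ) = -12 * quatClassNumber N := by
  intro N
  induction N using Nat.strong_induction_on with
  | _ N ih =>
    intro hpos hmod
    by_cases h9 : 9 ∣ N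
    · obtain ⟨M, rfl⟩ := h9
      rw [fixSum_nine, quatClassNumber_nine]
      exact ih M (by omega) (by omega) (by omega)
    · rw [fixSum, Finset.sum_congr rfl fun v hv => fixCount_of_not_nine h9 hv, Finset.sum_const,
        nsmul_eq_mul, quatClassNumber_base h9]
      push_cast
      rw [card_reps_eq N hmod hpos]
      ring

/-- The representations fixing one line. -/
def lineReps (N : ℕ) (j : Fin 4) : Finset (ℤ × ℤ × ℤ) := (reps N).filter fun v => Fixes j v

theorem card_lineReps (N : ℕ) (j : Fin 4) : (lineReps N j).card = (lineReps N 0).card := by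
  let σ : ℤ × ℤ × ℤ → ℤ × ℤ × ℤ := fun v => ((sgn j).2 * v.1, (sgn j).1 * v.2.1, v.2.2)
  obtain ⟨h1, h2⟩ := sgn_sq j
  have hσ : ∀ v, σ (σ v) = v := fun v => by
    simp only [σ, ← mul_assoc, ← pow_two, h1, h2, one_mul]
  have hrep : ∀ v, v ∈ reps N ↔ σ v ∈ reps N := fun v => by
    simp only [mem_reps, σ, mul_pow, h1, h2, one_mul]
  have hfix : ∀ v, Fixes j v ↔ Fixes 0 (σ v) := fun v => by
    rw [fixes_iff, fixes_iff]
    fin_cases j <;> simp [σ, rotT, sgn] <;> omega
  refine Finset.card_nbij' σ σ (fun v hv => ?_) (fun v hv => ?_) (fun v _ => hσ v) fun v _ => hσ v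
  · obtain ⟨hv, hf⟩ := Finset.mem_filter.1 (Finset.mem_coe.1 hv)
    exact Finset.mem_coe.2 (Finset.mem_filter.2 ⟨(hrep v).1 hv, (hfix v).1 hf⟩)
  · obtain ⟨hv, hf⟩ := Finset.mem_filter.1 (Finset.mem_coe.1 hv)
    exact Finset.mem_coe.2 (Finset.mem_filter.2 ⟨(hrep v).1 hv, (hfix _).2 (by rwa [hσ])⟩)

/-- The sum by one line. -/
theorem fixSum_eq_line (N : ℕ) :
    fixSum N = 4 * (lineReps N 0).card - 2 * (reps N).card := by
  classical
  rw [fixSum, Finset.sum_sub_distrib, Finset.sum_const, nsmul_eq_mul, mul_comm (2 : ℤ)]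
  refine congrArg (· - _) ?_
  rw [show (4 : ℤ) * (lineReps N 0).card = ∑ j : Fin 4, ((lineReps N j).card : ℤ) by
    simp [card_lineReps N]]
  simp only [fixCount, lineReps, Finset.card_filter, Nat.cast_sum]
  exact Finset.sum_comm

end FA.QuaternionJL

end
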